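import Mathlib
import Fermat.Agent.MUL.Lib.BadRed.Final.Main
import Fermat.Agent.MUL.S48.W.Interfaces
import Fermat.Agent.MUL.Orig.F3.OpenStab
import Fermat.Agent.MUL.F3.FrobDensityLiteFinal
import Fermat.Agent.MUL.S48.W.ProductDefs
import Fermat.Agent.MUL.S48.W.P.Defs
import Fermat.Agent.MUL.S48.W.H.Defs

section MergeWrap_S48_W_R_Core -- from S48/W/R/Core.lean

set_option autoImplicit false
set_option linter.style.haveILetI false
set_option linter.unusedSectionVars false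

noncomputable section

namespace Fermat.Agent.S48WR

open Fermat.Agent.F3 (GQ FrobDensityLite)
open Fermat.Agent.S29Core Fermat.Agent.S29Asm
open scoped TensorProduct
open Polynomial

local notation "Qb" => AlgebraicClosure ℚ

section Core

variable {Y : Type} [AddCommGroup Y] (gal : GQ →* Module.End ℤ Y)
  (T Dm : Nat.Primes → Module.End ℤ Y)
variable {k : Type} [Field k] (N p : ℕ)

/-- The abstract hypotheses of the assembly with character. -/
structure InputsD (ω : GQ →* kˣ) (x : k ⊗[ℤ] Y) (a d : Nat.Primes → k) : Prop where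
  dense : FrobDensityLite
  openStab : OpenStab gal
  commT : ∀ (ℓ : Nat.Primes) (σ : GQ), T ℓ * gal σ = gal σ * T ℓ
  commD : ∀ (ℓ : Nat.Primes) (σ : GQ), Dm ℓ * gal σ = gal σ * Dm ℓ
  unram : ∀ ℓ : ℕ, ℓ.Prime → ¬ ℓ ∣ N * p → ∀ A : ValuationSubring Qb, A.LiesOverPrime ℓ →
    ∀ σ ∈ A.inertiaSubgroupIn ℚ, gal σ = 1
  quad : ∀ (ℓ : ℕ) (hℓ : ℓ.Prime), ¬ ℓ ∣ N * p → ∀ A : ValuationSubring Qb,
    A.LiesOverPrime ℓ → ∀ σ : GQ, A.IsFrobeniusAt σ ℓ →
      gal σ * gal σ * Dm ⟨ℓ, hℓ⟩ - T ⟨ℓ, hℓ⟩ * gal σ + (ℓ : ℤ) • (1 : Module.End ℤ Y) = 0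
  x_ne : x ≠ 0
  eigenT : ∀ ℓ : Nat.Primes, ¬ (ℓ : ℕ) ∣ N * p → (T ℓ).baseChange k x = a ℓ • x
  eigenD : ∀ ℓ : Nat.Primes, ¬ (ℓ : ℕ) ∣ N * p → (Dm ℓ).baseChange k x = d ℓ • x
  d_ne : ∀ ℓ : Nat.Primes, ¬ (ℓ : ℕ) ∣ N * p → d ℓ ≠ 0
  split : ∀ ℓ : Nat.Primes, ¬ (ℓ : ℕ) ∣ N * p →
    ∃ c e : k, c + e = a ℓ / d ℓ ∧ c * e = ((ℓ : ℕ) : k) / d ℓ
  ω_frob : ∀ (ℓ : ℕ) (hℓ : ℓ.Prime), ¬ ℓ ∣ N * p → ∀ A : ValuationSubring Qb,
    A.LiesOverPrime ℓ → ∀ σ : GQ, A.IsFrobeniusAt σ ℓ →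
      ((ω σ : kˣ) : k) = (ℓ : k) / d ⟨ℓ, hℓ⟩
  ω_inertia : ∀ ℓ : ℕ, ℓ.Prime → ¬ ℓ ∣ N * p → ∀ A : ValuationSubring Qb, A.LiesOverPrime ℓ →
    ∀ σ ∈ A.inertiaSubgroupIn ℚ, ω σ = 1
  ω_level : ∃ L : IntermediateField ℚ Qb, FiniteDimensional ℚ L ∧ ∀ σ : GQ, Fixes L σ → ω σ = 1
  Np_ne : N * p ≠ 0

variable {gal T Dm N p}
variable {ω : GQ →* kˣ} {x : k ⊗[ℤ] Y} {a d : Nat.Primes → k}

/-- an operator commuting with `gal` which has `x` as an eigenvector acts as a scalar on the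
orbit span. -/
lemma eigen_on_orbitSpan_of_comm (S : Module.End ℤ Y) (hS : ∀ σ : GQ, S * gal σ = gal σ * S)
    {c : k} (hx : S.baseChange k x = c • x) {w : k ⊗[ℤ] Y} (hw : w ∈ orbitSpan gal x) :
    S.baseChange k w = c • w := by
  induction hw using Submodule.span_induction with
  | mem w hw =>
    obtain ⟨σ, rfl⟩ := hw
    show S.baseChange k ((gal σ).baseChange k x) = c • (gal σ).baseChange k x
    have e : S.baseChange k ((gal σ).baseChange k x)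
        = (gal σ).baseChange k (S.baseChange k x) := by
      rw [← Module.End.mul_apply, ← Module.End.mul_apply, ← LinearMap.baseChange_mul,
        ← LinearMap.baseChange_mul, hS σ]
    rw [e, hx, map_smul]
  | zero => rw [map_zero, smul_zero]
  | add u v _ _ hu hv => rw [map_add, hu, hv, smul_add]
  | smul c' u _ hu => rw [map_smul, hu, smul_comm]

/-- The Eichler--Shimura relation with character on `k ⊗ Y`. -/
lemma quadD_baseChange (h : InputsD gal T Dm N p ω x a d) (ℓ : ℕ) (hℓ : ℓ.Prime)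
    (hℓN : ¬ ℓ ∣ N * p) (A : ValuationSubring Qb) (hA : A.LiesOverPrime ℓ) (σ : GQ)
    (hσ : A.IsFrobeniusAt σ ℓ) (w : k ⊗[ℤ] Y) :
    rhoM gal k σ (rhoM gal k σ ((Dm ⟨ℓ, hℓ⟩).baseChange k w))
      - (T ⟨ℓ, hℓ⟩).baseChange k (rhoM gal k σ w) + (ℓ : k) • w = 0 := by
  have h1 := congrArg (fun f : Module.End ℤ Y => f.baseChange k) (h.quad ℓ hℓ hℓN A hA σ hσ)
  simp only [LinearMap.baseChange_add, LinearMap.baseChange_sub, LinearMap.baseChange_mul,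
    LinearMap.baseChange_smul, LinearMap.baseChange_one, LinearMap.baseChange_zero] at h1
  have h2 := congrArg (fun f : Module.End k (k ⊗[ℤ] Y) => f w) h1
  simp only [LinearMap.add_apply, LinearMap.sub_apply, Module.End.mul_apply,
    LinearMap.smul_apply, Module.End.one_apply, LinearMap.zero_apply] at h2
  rw [rhoM_apply]
  rw [← h2]
  congr 1
  rw [← Int.cast_smul_eq_zsmul k (ℓ : ℤ) w, Int.cast_natCast]

/-- The split quadratic relation for Frobenius elements on the orbit span. -/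
lemma rhoW_quadD (h : InputsD gal T Dm N p ω x a d) (ℓ : ℕ) (hℓ : ℓ.Prime)
    (hℓN : ¬ ℓ ∣ N * p) (A : ValuationSubring Qb) (hA : A.LiesOverPrime ℓ) (σ : GQ)
    (hσ : A.IsFrobeniusAt σ ℓ) {c e : k} (hce : c + e = a ⟨ℓ, hℓ⟩ / d ⟨ℓ, hℓ⟩)
    (hce' : c * e = (ℓ : k) / d ⟨ℓ, hℓ⟩) :
    (rhoW gal x σ - c • (1 : Module.End k (orbitSpan gal x))) *
      (rhoW gal x σ - e • (1 : Module.End k (orbitSpan gal x))) = 0 := by
  ext ⟨w, hw⟩
  have hd := h.d_ne ⟨ℓ, hℓ⟩ hℓN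
  have h1 := quadD_baseChange h ℓ hℓ hℓN A hA σ hσ w
  have hσw : rhoM gal k σ w ∈ orbitSpan gal x := orbitSpan_invariant x σ w hw
  rw [eigen_on_orbitSpan_of_comm (T ⟨ℓ, hℓ⟩) (h.commT ⟨ℓ, hℓ⟩) (h.eigenT ⟨ℓ, hℓ⟩ hℓN) hσw,
    eigen_on_orbitSpan_of_comm (Dm ⟨ℓ, hℓ⟩) (h.commD ⟨ℓ, hℓ⟩) (h.eigenD ⟨ℓ, hℓ⟩ hℓN) hw,
    map_smul, map_smul] at h1
  simp only [Module.End.mul_apply, LinearMap.sub_apply, LinearMap.smul_apply,
    Module.End.one_apply, LinearMap.zero_apply, Submodule.coe_sub, Submodule.coe_smul,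
    coe_rhoW_apply, Submodule.coe_zero, map_sub, map_smul]
  have ha : a ⟨ℓ, hℓ⟩ = (c + e) * d ⟨ℓ, hℓ⟩ := by rw [hce, div_mul_cancel₀ _ hd]
  have hl : (ℓ : k) = (c * e) * d ⟨ℓ, hℓ⟩ := by rw [hce', div_mul_cancel₀ _ hd]
  rw [ha, hl] at h1
  have h2 : d ⟨ℓ, hℓ⟩ • (rhoM gal k σ (rhoM gal k σ w) - c • rhoM gal k σ w -
      e • (rhoM gal k σ w - c • w)) = 0 := by
    rw [← h1]
    module
  rcases smul_eq_zero.mp h2 with h3 | h3
  · exact absurd h3 hd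
  · exact h3

/-- **Abstract assembly with character.** -/
theorem exists_residualRepD (h : InputsD gal T Dm N p ω x a d) :
    ∃ ρ : ResidualGaloisRep k,
      (∀ (ℓ : ℕ) (hℓ : ℓ.Prime), ¬ ℓ ∣ N * p → ∀ A : ValuationSubring Qb, A.LiesOverPrime ℓ →
        ∀ σ : GQ, A.IsFrobeniusAt σ ℓ →
          LinearMap.charpoly (ρ.ρ σ) = X ^ 2 - C (a ⟨ℓ, hℓ⟩ / d ⟨ℓ, hℓ⟩) * X
            + C ((ℓ : k) / d ⟨ℓ, hℓ⟩)) ∧
      ∀ ℓ : ℕ, ℓ.Prime → ¬ ℓ ∣ N * p → ρ.IsUnramifiedAt ℓ := by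
  classical
  obtain ⟨Lω, hLω, hωL⟩ := h.ω_level
  obtain ⟨L, hLfd, hLn, hLω_le, hLfix⟩ := exists_normal_level_fix k h.openStab x Lω hLω
  haveI := hLfd
  haveI := hLn
  haveI : FiniteDimensional k (orbitSpan gal x) :=
    FiniteDimensional.span_of_finite k (finite_orbit k x L hLfix)
  haveI : Nontrivial (orbitSpan gal x) :=
    ⟨⟨⟨x, mem_orbitSpan_self x⟩, 0, fun h0 => h.x_ne (congrArg Subtype.val h0)⟩⟩
  have hρL : ∀ σ : GQ, Fixes L σ → rhoW gal x σ = 1 := fun σ hσ =>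
    rhoW_eq_one_of_fixes hLfix hσ
  have hωL' : ∀ σ : GQ, Fixes L σ → ω σ = 1 := fun σ hσ => hωL σ (hσ.mono hLω_le)
  let P : Set (GQ × k) := {q | ∃ (ℓ : ℕ) (hℓ : ℓ.Prime), ¬ ℓ ∣ N * p ∧
    ∃ A : ValuationSubring Qb, A.LiesOverPrime ℓ ∧ A.IsFrobeniusAt q.1 ℓ ∧
      q.2 = a ⟨ℓ, hℓ⟩ / d ⟨ℓ, hℓ⟩}
  have hP : ∀ σ b, (σ, b) ∈ P → ∃ c e : k, c + e = b ∧ c * e = (ω σ : k) ∧
      (rhoW gal x σ - c • (1 : Module.End k (orbitSpan gal x))) *
        (rhoW gal x σ - e • (1 : Module.End k (orbitSpan gal x))) = 0 := by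
    rintro σ b ⟨ℓ, hℓ, hℓN, A, hA, hσ, rfl⟩
    obtain ⟨c, e, hce, hce'⟩ := h.split ⟨ℓ, hℓ⟩ hℓN
    refine ⟨c, e, hce, ?_, rhoW_quadD h ℓ hℓ hℓN A hA σ hσ hce hce'⟩
    rw [hce', h.ω_frob ℓ hℓ hℓN A hA σ hσ]
  have hdense : ∀ g : GQ, ∃ σ b, (σ, b) ∈ P ∧ ∃ m : ℕ,
      rhoW gal x g = rhoW gal x σ ^ m ∧ ω g = ω σ ^ m := by
    intro g
    obtain ⟨ℓ, A, τ, j, hℓ, hℓN, hA, hτ, hpow⟩ := exists_frob_pow h.dense h.Np_ne L hLfd hLn g
    exact ⟨τ, a ⟨ℓ, hℓ⟩ / d ⟨ℓ, hℓ⟩, ⟨ℓ, hℓ, hℓN, A, hA, hτ, rfl⟩, j,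
      hpow (rhoW gal x) hρL, hpow ω hωL'⟩
  obtain ⟨V, i1, i2, i3, ρV, hfin2, hker, hchar⟩ :=
    exists_two_dim_rep (rhoW gal x) ω P hP hdense
  letI := i1
  letI := i2
  refine ⟨{ V := V, finrank_eq := hfin2, ρ := ρV,
            factorsThroughFiniteLevel := ⟨L, hLfd, fun σ hσ => hker σ (hρL σ hσ) (hωL' σ hσ)⟩ },
    ?_, ?_⟩
  · intro ℓ hℓ hℓN A hA σ hσ
    have := hchar σ (a ⟨ℓ, hℓ⟩ / d ⟨ℓ, hℓ⟩) ⟨ℓ, hℓ, hℓN, A, hA, hσ, rfl⟩
    rw [h.ω_frob ℓ hℓ hℓN A hA σ hσ] at this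
    exact this
  · intro ℓ hℓ hℓN A hA σ hσ
    exact hker σ (rhoW_eq_one_of_gal_eq_one (h.unram ℓ hℓ hℓN A hA σ hσ))
      (h.ω_inertia ℓ hℓ hℓN A hA σ hσ)

end Core

end Fermat.Agent.S48WR
end
end MergeWrap_S48_W_R_Core

section MergeWrap_S48_W_R_Asm -- from S48/W/R/Asm.lean

set_option autoImplicit false
set_option linter.style.haveILetI false
set_option linter.unusedSectionVars false

noncomputable section

namespace Fermat.Agent.S48WR

open Fermat.Agent.F3 (GQ FrobDensityLite)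
open Fermat.Agent.S29Core Fermat.Agent.S29Asm Fermat.Agent.S48W
open ModularCurve AlgebraicCurve
open scoped TensorProduct
open Polynomial

local notation "Qb" => AlgebraicClosure ℚ
local notation "Zb" => integralClosure ℤ ℂ

/-! ### IF-H3 -/

/-- **IF-H3**: every torsion point of `J₁(M)(ℚ̄)` has an open stabiliser. -/
theorem torsionOpenStabOne (M : ℕ) [NeZero M] : TorsionOpenStabOne M :=
  fun _ hn x hx => Fermat.Agent.F3.torsion_open_stab (FOne M) hn x hx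

/-! ### algebra of `φ : ℤ̄ → k` -/

/-- A monic quadratic with coefficients in `ℤ̄` splits over `ℤ̄`. -/
lemma exists_split_zbar (a b : Zb) : ∃ α β : Zb, α + β = a ∧ α * β = b := by
  obtain ⟨s, hs⟩ := IsAlgClosed.exists_eq_mul_self (discrim (1 : ℂ) (-(a : ℂ)) (b : ℂ))
  obtain ⟨z, hz⟩ := exists_quadratic_eq_zero (one_ne_zero) ⟨s, hs⟩
  have hz' : z * z - (a : ℂ) * z + (b : ℂ) = 0 := by linear_combination hz
  have hint : IsIntegral Zb z := by
    refine ⟨X ^ 2 - C a * X + C b, ?_, ?_⟩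
    · have h1 : (X ^ 2 - C a * X + C b : Zb[X]) = X ^ 2 - (C a * X - C b) := by ring
      rw [h1]
      apply Polynomial.monic_X_pow_sub
      refine lt_of_le_of_lt (Polynomial.degree_sub_le _ _) ?_
      refine max_lt ?_ ?_
      · exact lt_of_le_of_lt (Polynomial.degree_C_mul_X_le a) (by norm_num)
      · exact lt_of_le_of_lt Polynomial.degree_C_le (by norm_num)
    · simp only [Polynomial.eval₂_add, Polynomial.eval₂_sub, Polynomial.eval₂_mul,
        Polynomial.eval₂_pow, Polynomial.eval₂_X, Polynomial.eval₂_C]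
      have e1 : algebraMap Zb ℂ a = (a : ℂ) := rfl
      have e2 : algebraMap Zb ℂ b = (b : ℂ) := rfl
      rw [e1, e2]
      linear_combination hz'
  have hintZ : IsIntegral ℤ z := isIntegral_trans z hint
  refine ⟨⟨z, hintZ⟩, a - ⟨z, hintZ⟩, by ring, ?_⟩
  apply Subtype.ext
  have : (z : ℂ) * ((a : ℂ) - z) = (b : ℂ) := by linear_combination -hz'
  simpa using this

/-- the image of `φ : ℤ̄ → k` (`char k = ℓ`) is a field: division by nonzero elements. -/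
lemma exists_div_of_charP {ℓ : ℕ} (hℓ : ℓ.Prime) {k : Type} [Field k] [CharP k ℓ]
    (φ : Zb →+* k) (u v : Zb) (hv : φ v ≠ 0) : ∃ w : Zb, φ w * φ v = φ u := by
  haveI : Fact ℓ.Prime := ⟨hℓ⟩
  have hprime : (RingHom.ker φ).IsPrime := RingHom.ker_isPrime φ
  have hcomap : (RingHom.ker φ).comap (algebraMap ℤ Zb) = Ideal.span {(ℓ : ℤ)} := by
    ext n
    rw [Ideal.mem_comap, RingHom.mem_ker, Ideal.mem_span_singleton, eq_intCast, map_intCast]
    exact CharP.intCast_eq_zero_iff k ℓ n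
  have hmaxZ : (Ideal.span {(ℓ : ℤ)}).IsMaximal :=
    PrincipalIdealRing.isMaximal_of_irreducible
      (Nat.prime_iff_prime_int.mp hℓ).irreducible
  haveI : Algebra.IsIntegral ℤ Zb := inferInstance
  have hmax : (RingHom.ker φ).IsMaximal :=
    Ideal.isMaximal_of_isIntegral_of_isMaximal_comap (R := ℤ) (RingHom.ker φ)
      (by rw [hcomap]; exact hmaxZ)
  have hvker : v ∉ RingHom.ker φ := fun h => hv ((RingHom.mem_ker).mp h)
  obtain ⟨v', i, hi, hv'⟩ := hmax.exists_inv hvker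
  have h1 : φ v * φ v' = 1 := by
    have h2 := congrArg φ hv'
    rw [map_add, map_mul, map_one, (RingHom.mem_ker).mp hi, add_zero] at h2
    rw [mul_comm]
    exact h2
  refine ⟨u * v', ?_⟩
  rw [map_mul, mul_assoc, mul_comm (φ v') (φ v), h1, mul_one]

/-! ### the Galois representation on `J₁(M)[n]` -/

section Wire

variable (M n : ℕ) [NeZero M]

/-- The Galois action on `J₁(M)(ℚ̄)` as a `ℤ`-linear map. -/
def galLinOne (σ : GQ) : JOne M →ₗ[ℤ] JOne M :=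
  (DistribSMul.toAddMonoidHom (JOne M) σ).toIntLinearMap

/-- The Galois representation on the `n`-torsion of `J₁(M)`. -/
def galRepOne : GQ →* Module.End ℤ (JtorsOne M n) where
  toFun σ := (galLinOne M σ).restrict (by
    intro x hx
    rw [Submodule.mem_torsionBy_iff] at hx ⊢
    rw [← map_smul, hx, map_zero])
  map_one' := by
    ext x
    show (1 : GQ) • (x : JOne M) = x
    rw [one_smul]
  map_mul' σ τ := by
    ext x
    show (σ * τ) • (x : JOne M) = σ • τ • (x : JOne M)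
    rw [mul_smul]

lemma coe_galRepOne_apply (σ : GQ) (x : JtorsOne M n) :
    ((galRepOne M n σ x : JtorsOne M n) : JOne M) = σ • (x : JOne M) := rfl

lemma coe_heckeTorsOne_apply (p : Nat.Primes) (x : JtorsOne M n) :
    ((heckeTorsOne M n p x : JtorsOne M n) : JOne M) = heckeOne M p (x : JOne M) := rfl

lemma coe_diamondTorsOne_apply (d : (ZMod M)ˣ) (x : JtorsOne M n) :
    ((diamondTorsOne M n d x : JtorsOne M n) : JOne M) = diamondOne M d (x : JOne M) := rfl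

lemma nsmul_coe_eq_zero_one (x : JtorsOne M n) : n • (x : JOne M) = 0 := by
  have := x.2
  rw [Submodule.mem_torsionBy_iff] at this
  rwa [natCast_zsmul] at this

open Classical in
/-- the diamond operator of a prime (junk `1` if `p ∣ M`). -/
def diamondPrime (p : Nat.Primes) : Module.End ℤ (JtorsOne M n) :=
  if h : Nat.Coprime (p : ℕ) M then diamondTorsOne M n (ZMod.unitOfCoprime p h) else 1

lemma diamondPrime_of_coprime (p : Nat.Primes) (h : Nat.Coprime (p : ℕ) M) :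
    diamondPrime M n p = diamondTorsOne M n (ZMod.unitOfCoprime p h) := by
  unfold diamondPrime
  rw [dif_pos h]

end Wire

/-! ### the character `ω = χ_cyc · χ` -/

section Char

variable (M ℓ : ℕ) [NeZero M] [Fact ℓ.Prime] (k : Type) [Field k] [CharP k ℓ]

/-- `φ ∘ χ` as a character of `G_ℚ` (through `Gal(ℚ(ζ_M)/ℚ) = (ℤ/M)ˣ`). -/
def chiGal (φ : Zb →+* k) (χ : (ZMod M)ˣ →* Zbˣ) : GQ →* kˣ :=
  ((Units.map (φ : Zb →* k)).comp χ).comp (Fermat.Agent.Cyclo.modChar M)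

/-- `ω = χ_cyc,ℓ · (φ ∘ χ)`. -/
def omegaChi (φ : Zb →+* k) (χ : (ZMod M)ˣ →* Zbˣ) : GQ →* kˣ :=
  Fermat.Agent.Cyclo.omegaK ℓ k * chiGal M k φ χ

variable {M ℓ k}

lemma chiGal_frobenius (φ : Zb →+* k) (χ : (ZMod M)ˣ →* Zbˣ) {p : ℕ} (hp : p.Prime)
    (hpM : Nat.Coprime p M) (A : ValuationSubring Qb) (hA : A.LiesOverPrime p) (σ : GQ)
    (hσ : A.IsFrobeniusAt σ p) :
    chiGal M k φ χ σ = Units.map (φ : Zb →* k) (χ (ZMod.unitOfCoprime p hpM)) := by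
  have hndvd : ¬ p ∣ M := fun h => hp.one_lt.ne' ((Nat.Coprime.eq_one_of_dvd hpM h))
  have h1 : Fermat.Agent.Cyclo.modChar M σ = ZMod.unitOfCoprime p hpM := by
    apply Units.ext
    rw [Fermat.Agent.Cyclo.modChar_frobenius M hp hndvd A hA σ hσ, ZMod.coe_unitOfCoprime]
  show Units.map (φ : Zb →* k) (χ (Fermat.Agent.Cyclo.modChar M σ)) = _
  rw [h1]

lemma omegaChi_frobenius (φ : Zb →+* k) (χ : (ZMod M)ˣ →* Zbˣ) {p : ℕ} (hp : p.Prime)
    (hpM : Nat.Coprime p M) (hpℓ : p ≠ ℓ) (A : ValuationSubring Qb) (hA : A.LiesOverPrime p)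
    (σ : GQ) (hσ : A.IsFrobeniusAt σ p) :
    ((omegaChi M ℓ k φ χ σ : kˣ) : k) = (p : k) * φ (χ (ZMod.unitOfCoprime p hpM) : Zb) := by
  show ((Fermat.Agent.Cyclo.omegaK ℓ k σ * chiGal M k φ χ σ : kˣ) : k) = _
  rw [Units.val_mul, Fermat.Agent.Cyclo.omegaK_frobenius ℓ k hp hpℓ A hA σ hσ,
    chiGal_frobenius φ χ hp hpM A hA σ hσ]
  rfl

lemma omegaChi_inertia (φ : Zb →+* k) (χ : (ZMod M)ˣ →* Zbˣ) {p : ℕ} (hp : p.Prime)
    (hpM : ¬ p ∣ M) (hpℓ : p ≠ ℓ) (A : ValuationSubring Qb) (hA : A.LiesOverPrime p)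
    (σ : GQ) (hσ : σ ∈ A.inertiaSubgroupIn ℚ) : omegaChi M ℓ k φ χ σ = 1 := by
  show Fermat.Agent.Cyclo.omegaK ℓ k σ * chiGal M k φ χ σ = 1
  rw [Fermat.Agent.Cyclo.omegaK_inertia ℓ k hp hpℓ A hA σ hσ, one_mul]
  show Units.map (φ : Zb →* k) (χ (Fermat.Agent.Cyclo.modChar M σ)) = 1
  rw [Fermat.Agent.Cyclo.modChar_inertia M hp hpM A hA σ hσ, map_one, map_one]

lemma omegaChi_level (φ : Zb →+* k) (χ : (ZMod M)ˣ →* Zbˣ) :
    ∃ L : IntermediateField ℚ Qb, FiniteDimensional ℚ L ∧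
      ∀ σ : GQ, Fixes L σ → omegaChi M ℓ k φ χ σ = 1 := by
  obtain ⟨L₁, hL₁, h₁⟩ := Fermat.Agent.Cyclo.omegaK_finiteLevel ℓ k
  obtain ⟨L₂, hL₂, -, h₂⟩ := Fermat.Agent.Cyclo.modChar_finiteLevel M
  haveI := hL₁
  haveI := hL₂
  refine ⟨L₁ ⊔ L₂, IntermediateField.finiteDimensional_sup L₁ L₂, fun σ hσ => ?_⟩
  show Fermat.Agent.Cyclo.omegaK ℓ k σ * chiGal M k φ χ σ = 1
  rw [h₁ σ (fun x hx => hσ x (le_sup_left (a := L₁) (b := L₂) hx)), one_mul]
  show Units.map (φ : Zb →* k) (χ (Fermat.Agent.Cyclo.modChar M σ)) = 1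
  rw [h₂ σ (fun x hx => hσ x (le_sup_right (a := L₁) (b := L₂) hx)), map_one, map_one]

end Char

/-! ### the assembly -/

/-- **R-ASM**: `ResidualOne M` from the interface propositions of blocks G, H, A. -/
theorem residualOne_of_interfaces (M : ℕ) [NeZero M]
    (hU : TorsionUnramifiedOne M) (hQ : TorsionFrobQuadraticOne M)
    (hC : HeckeGaloisCommOne M) (hE : EigenclassOne M) : ResidualOne M := by
  intro ℓ hℓ k _ _ φ e
  classical
  haveI : Fact ℓ.Prime := ⟨hℓ⟩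
  obtain ⟨x, hx0, hxT, hxD⟩ := hE ℓ hℓ k φ e
  have hMℓ : M * ℓ ≠ 0 := mul_ne_zero (NeZero.ne M) hℓ.ne_zero
  have hcop : ∀ p : ℕ, p.Prime → ¬ p ∣ M * ℓ → Nat.Coprime p M := fun p hp h =>
    (Nat.Prime.coprime_iff_not_dvd hp).mpr (fun hd => h (hd.mul_right ℓ))
  have hne : ∀ p : ℕ, p.Prime → ¬ p ∣ M * ℓ → p ≠ ℓ := by
    rintro p - h rfl
    exact h (dvd_mul_left _ _)
  -- the eigenvalues
  let dd : Nat.Primes → k := fun p =>
    if h : Nat.Coprime (p : ℕ) M then φ ((e.χ (ZMod.unitOfCoprime p h))⁻¹ : Zbˣ) else 1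
  have hdd : ∀ (p : Nat.Primes) (h : Nat.Coprime (p : ℕ) M),
      dd p = φ ((e.χ (ZMod.unitOfCoprime p h))⁻¹ : Zbˣ) := fun p h => by
    simp only [dd, dif_pos h]
  have hunit : ∀ u : Zbˣ, φ (u⁻¹ : Zbˣ) * φ (u : Zb) = 1 := fun u => by
    rw [← map_mul, ← Units.val_mul, inv_mul_cancel, Units.val_one, map_one]
  have hdd_ne : ∀ (p : Nat.Primes), ¬ (p : ℕ) ∣ M * ℓ → dd p ≠ 0 := by
    intro p h
    rw [hdd p (hcop p p.2 h)]
    intro h0
    have := hunit (e.χ (ZMod.unitOfCoprime p (hcop p p.2 h)))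
    rw [h0, zero_mul] at this
    exact zero_ne_one this
  have hdiv : ∀ (p : Nat.Primes) (h : Nat.Coprime (p : ℕ) M) (c : k),
      c / dd p = c * φ (e.χ (ZMod.unitOfCoprime p h) : Zb) := by
    intro p h c
    rw [hdd p h, div_eq_iff, mul_assoc, mul_comm (φ _) (φ _), hunit, mul_one]
    intro h0
    have := hunit (e.χ (ZMod.unitOfCoprime p h))
    rw [h0, zero_mul] at this
    exact zero_ne_one this
  obtain ⟨n₀, hn₀⟩ := e.ne
  have hin : InputsD (galRepOne M ℓ) (heckeTorsOne M ℓ) (diamondPrime M ℓ) M ℓ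
      (omegaChi M ℓ k φ e.χ) x (fun p => e.t p * dd p) dd :=
    { dense := Fermat.Agent.F3.frobDensityLite
      openStab := by
        intro y
        obtain ⟨L, hL, h⟩ := torsionOpenStabOne M ℓ hℓ.pos (y : JOne M)
          (nsmul_coe_eq_zero_one M ℓ y)
        exact ⟨L, hL, fun σ hσ => Subtype.ext (h σ hσ)⟩
      commT := by
        intro p σ
        ext y
        exact hC.1 p σ (y : JOne M)
      commD := by
        intro p σ
        by_cases h : Nat.Coprime (p : ℕ) M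
        · rw [diamondPrime_of_coprime M ℓ p h]
          ext y
          exact hC.2 _ σ (y : JOne M)
        · unfold diamondPrime
          rw [dif_neg h, one_mul, mul_one]
      unram := by
        intro p hp hpN A hA σ hσ
        ext y
        exact hU ℓ p hp hpN A hA σ hσ (y : JOne M) (nsmul_coe_eq_zero_one M ℓ y)
      quad := by
        intro p hp hpN A hA σ hσ
        rw [diamondPrime_of_coprime M ℓ ⟨p, hp⟩ (hcop p hp hpN)]
        ext y
        have hpℓ : ¬ p ∣ ℓ := fun hd =>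
          hne p hp hpN ((Nat.prime_dvd_prime_iff_eq hp hℓ).mp hd)
        have := hQ ℓ p hp (hcop p hp hpN) hpℓ A hA σ hσ (y : JOne M)
          (nsmul_coe_eq_zero_one M ℓ y)
        simp only [LinearMap.add_apply, LinearMap.sub_apply, Module.End.mul_apply,
          LinearMap.smul_apply, Module.End.one_apply, LinearMap.zero_apply, Submodule.coe_add,
          Submodule.coe_sub, Submodule.coe_zero, coe_galRepOne_apply,
          coe_heckeTorsOne_apply, coe_diamondTorsOne_apply, natCast_zsmul]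
        exact this
      x_ne := hx0
      eigenT := by
        intro p h
        rw [hxT p (hcop p p.2 h) (hne p p.2 h), hdd p (hcop p p.2 h)]
      eigenD := by
        intro p h
        rw [diamondPrime_of_coprime M ℓ p (hcop p p.2 h), hxD, hdd p (hcop p p.2 h)]
      d_ne := hdd_ne
      split := by
        intro p h
        have hpM := hcop p p.2 h
        -- `t p = φ w`
        have hw : ∃ w : Zb, φ w = e.t p := by
          have heig := e.eig p hpM n₀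
          obtain ⟨w, hw⟩ := exists_div_of_charP hℓ φ
            (e.c (p * n₀) + (((p : ℕ) : ℤ) : Zb) * (e.χ (ZMod.unitOfCoprime p hpM) : Zb) *
              (if (p : ℕ) ∣ n₀ then e.c (n₀ / p) else 0)) (e.c n₀) hn₀
          refine ⟨w, ?_⟩
          have h2 : φ w * φ (e.c n₀) = e.t p * φ (e.c n₀) := by
            rw [hw, ← heig, map_add, map_mul, map_mul, map_intCast, Int.cast_natCast]
            split_ifs <;> simp
          exact mul_right_cancel₀ hn₀ h2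
        obtain ⟨w, hw⟩ := hw
        obtain ⟨α, β, h1, h2⟩ := exists_split_zbar w
          ((((p : ℕ) : ℤ) : Zb) * (e.χ (ZMod.unitOfCoprime p hpM) : Zb))
        refine ⟨φ α, φ β, ?_, ?_⟩
        · rw [← map_add, h1, hw, mul_div_assoc, div_self (hdd_ne p h), mul_one]
        · rw [← map_mul, h2, hdiv p hpM, map_mul, map_intCast, Int.cast_natCast]
      ω_frob := by
        intro p hp hpN A hA σ hσ
        rw [omegaChi_frobenius φ e.χ hp (hcop p hp hpN) (hne p hp hpN) A hA σ hσ,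
          hdiv ⟨p, hp⟩ (hcop p hp hpN)]
      ω_inertia := by
        intro p hp hpN A hA σ hσ
        exact omegaChi_inertia φ e.χ hp (fun hd => hpN (hd.mul_right ℓ)) (hne p hp hpN) A hA σ hσ
      ω_level := omegaChi_level φ e.χ
      Np_ne := hMℓ }
  obtain ⟨ρ, hρ1, hρ2⟩ := exists_residualRepD hin
  refine ⟨ρ, hρ2, ?_⟩
  intro p hpM hpℓ A hA σ hσ
  have hpN : ¬ (p : ℕ) ∣ M * ℓ := by
    intro hd
    rcases (Nat.Prime.dvd_mul p.2).mp hd with h | h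
    · exact p.2.one_lt.ne' (Nat.Coprime.eq_one_of_dvd hpM h)
    · exact hpℓ ((Nat.prime_dvd_prime_iff_eq p.2 hℓ).mp h)
  have := hρ1 p p.2 hpN A hA σ hσ
  rw [this]
  have hp' : (⟨(p : ℕ), p.2⟩ : Nat.Primes) = p := Subtype.ext rfl
  rw [hp']
  have e1 : e.t p * dd p / dd p = e.t p := by
    rw [mul_div_assoc, div_self (hdd_ne p hpN), mul_one]
  have e2 : ((p : ℕ) : k) / dd p
      = ((p : ℕ) : k) * φ (e.χ (ZMod.unitOfCoprime p hpM) : Zb) := hdiv p hpM _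
  rw [e1, e2]

end Fermat.Agent.S48WR
end
end MergeWrap_S48_W_R_Asm

section MergeWrap_S48_W_WallAsm -- from S48/W/WallAsm.lean

set_option autoImplicit false
set_option linter.style.haveILetI false

noncomputable section

namespace Fermat.Agent.S48W

open ModularCurve AlgebraicCurve CongruenceSubgroup
open scoped TensorProduct MatrixGroups ModularForm

/-- **W-ASM**: the wall from block P and the residual representations at level `Γ₁(M)`. -/
theorem wallStatement_of (hP : ProductEigenStatement)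
    (hR : ∀ (M : ℕ) [NeZero M], ResidualOne M) : WallStatement := by
  intro N _ ε f c a hc hne hK hneb hT ℓ hℓ hℓN k _ _ φ
  haveI : NeZero (N * ℓ) := ⟨mul_ne_zero (NeZero.ne N) hℓ.ne_zero⟩
  obtain ⟨e, het, heχ⟩ := hP N ε f c a hc hne hK hneb hT ℓ hℓ hℓN k φ
  obtain ⟨ρ, hρ1, hρ2⟩ := hR (N * ℓ) ℓ hℓ k φ e
  refine ⟨ρ, fun p hp hpN => hρ1 p hp ?_, ?_⟩
  · intro hd
    rcases (Nat.Prime.dvd_mul hp).mp hd with h | h
    · exact hpN h
    · exact hpN (h.mul_left N)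
  · intro p hp hpN hpℓ A hA σ hσ
    have hpℓ' : Nat.Coprime p ℓ := (Nat.coprime_primes hp hℓ).mpr hpℓ
    have hpM : Nat.Coprime p (N * ℓ) := Nat.Coprime.mul_right hpN hpℓ'
    have := hρ2 ⟨p, hp⟩ hpM hpℓ A hA σ hσ
    rw [this, het ⟨p, hp⟩ hpM, heχ p hpN hpM]

/-- **W-ASM, levels `≥ ℓ₀`**: the wall for `ℓ ≥ ℓ₀` from block P and the residual
representations at the levels `M ≥ ℓ₀`. -/
theorem wallStatementFrom_of (ℓ₀ : ℕ) (hP : ProductEigenStatement)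
    (hR : ∀ (M : ℕ) [NeZero M], ℓ₀ ≤ M → ResidualOne M) : WallStatementFrom ℓ₀ := by
  intro N _ ε f c a hc hne hK hneb hT ℓ hℓ hℓN hℓ₀ k _ _ φ
  haveI : NeZero (N * ℓ) := ⟨mul_ne_zero (NeZero.ne N) hℓ.ne_zero⟩
  obtain ⟨e, het, heχ⟩ := hP N ε f c a hc hne hK hneb hT ℓ hℓ hℓN k φ
  have hle : ℓ₀ ≤ N * ℓ := hℓ₀.trans (Nat.le_mul_of_pos_left ℓ (Nat.pos_of_ne_zero (NeZero.ne N)))
  obtain ⟨ρ, hρ1, hρ2⟩ := hR (N * ℓ) hle ℓ hℓ k φ e
  refine ⟨ρ, fun p hp hpN => hρ1 p hp ?_, ?_⟩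
  · intro hd
    rcases (Nat.Prime.dvd_mul hp).mp hd with h | h
    · exact hpN h
    · exact hpN (h.mul_left N)
  · intro p hp hpN hpℓ A hA σ hσ
    have hpℓ' : Nat.Coprime p ℓ := (Nat.coprime_primes hp hℓ).mpr hpℓ
    have hpM : Nat.Coprime p (N * ℓ) := Nat.Coprime.mul_right hpN hpℓ'
    have := hρ2 ⟨p, hp⟩ hpM hpℓ A hA σ hσ
    rw [this, het ⟨p, hp⟩ hpM, heχ p hpN hpM]

/-- the wall for `ℓ ≥ ℓ₀` from block P and the interface propositions of blocks G, H, A at the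
levels `M ≥ ℓ₀`. -/
theorem wallStatementFrom_of_interfaces (ℓ₀ : ℕ) (hP : ProductEigenStatement)
    (hU : ∀ (M : ℕ) [NeZero M], ℓ₀ ≤ M → TorsionUnramifiedOne M)
    (hQ : ∀ (M : ℕ) [NeZero M], ℓ₀ ≤ M → TorsionFrobQuadraticOne M)
    (hC : ∀ (M : ℕ) [NeZero M], ℓ₀ ≤ M → HeckeGaloisCommOne M)
    (hE : ∀ (M : ℕ) [NeZero M], ℓ₀ ≤ M → EigenclassOne M) : WallStatementFrom ℓ₀ :=
  wallStatementFrom_of ℓ₀ hP fun M _ hM =>
    Fermat.Agent.S48WR.residualOne_of_interfaces M (hU M hM) (hQ M hM) (hC M hM) (hE M hM)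

/-- the wall from block P and the interface propositions of blocks G, H, A. -/
theorem wallStatement_of_interfaces (hP : ProductEigenStatement)
    (hU : ∀ (M : ℕ) [NeZero M], TorsionUnramifiedOne M)
    (hQ : ∀ (M : ℕ) [NeZero M], TorsionFrobQuadraticOne M)
    (hC : ∀ (M : ℕ) [NeZero M], HeckeGaloisCommOne M)
    (hE : ∀ (M : ℕ) [NeZero M], EigenclassOne M) : WallStatement :=
  wallStatement_of hP fun M _ =>
    Fermat.Agent.S48WR.residualOne_of_interfaces M (hU M) (hQ M) (hC M) (hE M)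

end Fermat.Agent.S48W
end
end MergeWrap_S48_W_WallAsm

section MergeWrap_S48_W_WallAsmP -- from S48/W/WallAsmP.lean

set_option autoImplicit false
set_option linter.style.haveILetI false

noncomputable section

namespace Fermat.Agent.S48W

open ModularCurve AlgebraicCurve CongruenceSubgroup
open scoped TensorProduct MatrixGroups ModularForm

/-- **W-WIRE, levels `≥ ℓ₀`**: the wall for `ℓ ≥ ℓ₀` from `ProductEigen` and the residual
representations at the levels `M ≥ ℓ₀`. -/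
theorem wallStatementFrom_of_productEigen (ℓ₀ : ℕ) (hP : ProductEigen)
    (hR : ∀ (M : ℕ) [NeZero M], ℓ₀ ≤ M → ResidualOne M) : WallStatementFrom ℓ₀ := by
  intro N _ ε f c a hc hne hK hneb hT ℓ hℓ hℓN hℓ₀ k _ _ φ
  obtain ⟨hNe, e, het, heχ⟩ := hP N ε f c a hc hne hK hneb hT ℓ hℓ hℓN k φ
  haveI : NeZero (N * ℓ) := hNe
  have hle : ℓ₀ ≤ N * ℓ := hℓ₀.trans (Nat.le_mul_of_pos_left ℓ (Nat.pos_of_ne_zero (NeZero.ne N)))
  obtain ⟨ρ, hρ1, hρ2⟩ := hR (N * ℓ) hle ℓ hℓ k φ e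
  refine ⟨ρ, fun p hp hpN => hρ1 p hp ?_, ?_⟩
  · intro hd
    rcases (Nat.Prime.dvd_mul hp).mp hd with h | h
    · exact hpN h
    · exact hpN (h.mul_left N)
  · intro p hp hpN hpℓ A hA σ hσ
    have hpℓ' : Nat.Coprime p ℓ := (Nat.coprime_primes hp hℓ).mpr hpℓ
    have hpM : Nat.Coprime p (N * ℓ) := Nat.Coprime.mul_right hpN hpℓ'
    have := hρ2 ⟨p, hp⟩ hpM hpℓ A hA σ hσ
    rw [this, het ⟨p, hp⟩ hpM]
    have h2 := heχ ⟨p, hp⟩ hpM hpN
    simp only at h2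
    rw [h2]

/-- **W-WIRE**: the wall for `ℓ ≥ ℓ₀` from `ProductEigen` and the interface propositions of blocks
G, H, A at the levels `M ≥ ℓ₀`. -/
theorem wallStatementFrom_of_productEigen_interfaces (ℓ₀ : ℕ) (hP : ProductEigen)
    (hU : ∀ (M : ℕ) [NeZero M], ℓ₀ ≤ M → TorsionUnramifiedOne M)
    (hQ : ∀ (M : ℕ) [NeZero M], ℓ₀ ≤ M → TorsionFrobQuadraticOne M)
    (hC : ∀ (M : ℕ) [NeZero M], ℓ₀ ≤ M → HeckeGaloisCommOne M)
    (hE : ∀ (M : ℕ) [NeZero M], ℓ₀ ≤ M → EigenclassOne M) : WallStatementFrom ℓ₀ :=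
  wallStatementFrom_of_productEigen ℓ₀ hP fun M _ hM =>
    Fermat.Agent.S48WR.residualOne_of_interfaces M (hU M hM) (hQ M hM) (hC M hM) (hE M hM)

end Fermat.Agent.S48W
end
end MergeWrap_S48_W_WallAsmP

section MergeWrap_S48_W_R_AsmAt -- from S48/W/R/AsmAt.lean

set_option autoImplicit false
set_option linter.style.haveILetI false
set_option linter.unusedSectionVars false

noncomputable section

namespace Fermat.Agent.S48W

open ModularCurve AlgebraicCurve CongruenceSubgroup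
open scoped TensorProduct MatrixGroups ModularForm

local notation "Kb" => AlgebraicClosure ℚ
local notation "GK" => (AlgebraicClosure ℚ ≃ₐ[ℚ] AlgebraicClosure ℚ)

/-- (IF-G1 at `ℓ`) inertia at `p ∤ M ℓ` acts trivially on `J₁(M)[ℓ]`. -/
def TorsionUnramifiedOneAt (M : ℕ) [NeZero M] (ℓ : ℕ) : Prop :=
  ∀ (p : ℕ), p.Prime → ¬ p ∣ M * ℓ →
    ∀ A : ValuationSubring Kb, A.LiesOverPrime p →
      ∀ σ ∈ A.inertiaSubgroupIn ℚ, ∀ x : JOne M, ℓ • x = 0 → σ • x = x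

/-- (IF-G2 at `ℓ`) Eichler-Shimura on `J₁(M)[ℓ]`: `σ² δ_p x - T_p σ x + p x = 0` for a Frobenius
`σ` at `p ∤ M ℓ`. -/
def TorsionFrobQuadraticOneAt (M : ℕ) [NeZero M] (ℓ : ℕ) : Prop :=
  ∀ (p : ℕ) (hp : p.Prime) (hpM : Nat.Coprime p M), p ≠ ℓ →
    ∀ A : ValuationSubring Kb, A.LiesOverPrime p →
      ∀ σ : GK, A.IsFrobeniusAt σ p → ∀ x : JOne M, ℓ • x = 0 →
        σ • σ • (diamondOne M (ZMod.unitOfCoprime p hpM) x)
          - heckeOne M ⟨p, hp⟩ (σ • x) + p • x = 0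

/-- (IF-A at `ℓ`) the mod-`ℓ` eigen-class. -/
def EigenclassOneAt (M : ℕ) [NeZero M] (ℓ : ℕ) : Prop :=
  ∀ (k : Type) [Field k] [CharP k ℓ] (φ : integralClosure ℤ ℂ →+* k)
    (e : ModEigen M k φ),
    ∃ x : k ⊗[ℤ] JtorsOne M ℓ, x ≠ 0 ∧
      (∀ (p : Nat.Primes) (hpM : Nat.Coprime (p : ℕ) M), (p : ℕ) ≠ ℓ →
        (heckeTorsOne M ℓ p).baseChange k x
          = (e.t p * φ ((e.χ (ZMod.unitOfCoprime p hpM))⁻¹ : (integralClosure ℤ ℂ)ˣ)) • x) ∧
      ∀ d : (ZMod M)ˣ, (diamondTorsOne M ℓ d).baseChange k x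
          = φ ((e.χ d)⁻¹ : (integralClosure ℤ ℂ)ˣ) • x

/-- (IF-R at `ℓ`) the residual representation of a mod-`φ` eigenvector, `char k = ℓ`. -/
def ResidualOneAt (M : ℕ) [NeZero M] (ℓ : ℕ) : Prop :=
  ∀ (k : Type) [Field k] [CharP k ℓ] (φ : integralClosure ℤ ℂ →+* k)
    (e : ModEigen M k φ),
    ∃ ρ : ResidualGaloisRep k,
      (∀ p : ℕ, p.Prime → ¬ p ∣ M * ℓ → ρ.IsUnramifiedAt p) ∧
      ∀ (p : Nat.Primes) (hpM : Nat.Coprime (p : ℕ) M), (p : ℕ) ≠ ℓ →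
        ∀ A : ValuationSubring Kb, A.LiesOverPrime p →
          ∀ σ : GK, A.IsFrobeniusAt σ p →
            LinearMap.charpoly (ρ.ρ σ) = Polynomial.X ^ 2 - Polynomial.C (e.t p) * Polynomial.X
              + Polynomial.C (((p : ℕ) : k) *
                  φ (e.χ (ZMod.unitOfCoprime p hpM) : integralClosure ℤ ℂ))

theorem torsionUnramifiedOneAt_of {M : ℕ} [NeZero M] (h : TorsionUnramifiedOne M) (ℓ : ℕ) :
    TorsionUnramifiedOneAt M ℓ := fun p hp hpN => h ℓ p hp hpN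

theorem torsionFrobQuadraticOneAt_of {M : ℕ} [NeZero M] (h : TorsionFrobQuadraticOne M) {ℓ : ℕ}
    (hℓ : ℓ.Prime) : TorsionFrobQuadraticOneAt M ℓ := fun p hp hpM hpℓ =>
  h ℓ p hp hpM (fun hd => hpℓ ((Nat.prime_dvd_prime_iff_eq hp hℓ).mp hd))

theorem eigenclassOneAt_of {M : ℕ} [NeZero M] (h : EigenclassOne M) {ℓ : ℕ} (hℓ : ℓ.Prime) :
    EigenclassOneAt M ℓ := fun k _ _ φ e => h ℓ hℓ k φ e

end Fermat.Agent.S48W

namespace Fermat.Agent.S48WR

open Fermat.Agent.F3 (GQ FrobDensityLite)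
open Fermat.Agent.S29Core Fermat.Agent.S29Asm Fermat.Agent.S48W
open ModularCurve AlgebraicCurve
open scoped TensorProduct
open Polynomial

local notation "Qb" => AlgebraicClosure ℚ
local notation "Zb" => integralClosure ℤ ℂ

/-- **R-ASM at `ℓ`**: `ResidualOneAt M ℓ` from the interface propositions at the torsion order
`ℓ`. -/
theorem residualOneAt_of_interfaces (M : ℕ) [NeZero M] (ℓ : ℕ) (hℓ : ℓ.Prime)
    (hU : TorsionUnramifiedOneAt M ℓ) (hQ : TorsionFrobQuadraticOneAt M ℓ)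
    (hC : HeckeGaloisCommOne M) (hE : EigenclassOneAt M ℓ) : ResidualOneAt M ℓ := by
  intro k _ _ φ e
  classical
  haveI : Fact ℓ.Prime := ⟨hℓ⟩
  obtain ⟨x, hx0, hxT, hxD⟩ := hE k φ e
  have hMℓ : M * ℓ ≠ 0 := mul_ne_zero (NeZero.ne M) hℓ.ne_zero
  have hcop : ∀ p : ℕ, p.Prime → ¬ p ∣ M * ℓ → Nat.Coprime p M := fun p hp h =>
    (Nat.Prime.coprime_iff_not_dvd hp).mpr (fun hd => h (hd.mul_right ℓ))
  have hne : ∀ p : ℕ, p.Prime → ¬ p ∣ M * ℓ → p ≠ ℓ := by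
    rintro p - h rfl
    exact h (dvd_mul_left _ _)
  -- the eigenvalues
  let dd : Nat.Primes → k := fun p =>
    if h : Nat.Coprime (p : ℕ) M then φ ((e.χ (ZMod.unitOfCoprime p h))⁻¹ : Zbˣ) else 1
  have hdd : ∀ (p : Nat.Primes) (h : Nat.Coprime (p : ℕ) M),
      dd p = φ ((e.χ (ZMod.unitOfCoprime p h))⁻¹ : Zbˣ) := fun p h => by
    simp only [dd, dif_pos h]
  have hunit : ∀ u : Zbˣ, φ (u⁻¹ : Zbˣ) * φ (u : Zb) = 1 := fun u => by
    rw [← map_mul, ← Units.val_mul, inv_mul_cancel, Units.val_one, map_one]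
  have hdd_ne : ∀ (p : Nat.Primes), ¬ (p : ℕ) ∣ M * ℓ → dd p ≠ 0 := by
    intro p h
    rw [hdd p (hcop p p.2 h)]
    intro h0
    have := hunit (e.χ (ZMod.unitOfCoprime p (hcop p p.2 h)))
    rw [h0, zero_mul] at this
    exact zero_ne_one this
  have hdiv : ∀ (p : Nat.Primes) (h : Nat.Coprime (p : ℕ) M) (c : k),
      c / dd p = c * φ (e.χ (ZMod.unitOfCoprime p h) : Zb) := by
    intro p h c
    rw [hdd p h, div_eq_iff, mul_assoc, mul_comm (φ _) (φ _), hunit, mul_one]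
    intro h0
    have := hunit (e.χ (ZMod.unitOfCoprime p h))
    rw [h0, zero_mul] at this
    exact zero_ne_one this
  obtain ⟨n₀, hn₀⟩ := e.ne
  have hin : InputsD (galRepOne M ℓ) (heckeTorsOne M ℓ) (diamondPrime M ℓ) M ℓ
      (omegaChi M ℓ k φ e.χ) x (fun p => e.t p * dd p) dd :=
    { dense := Fermat.Agent.F3.frobDensityLite
      openStab := by
        intro y
        obtain ⟨L, hL, h⟩ := torsionOpenStabOne M ℓ hℓ.pos (y : JOne M)
          (nsmul_coe_eq_zero_one M ℓ y)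
        exact ⟨L, hL, fun σ hσ => Subtype.ext (h σ hσ)⟩
      commT := by
        intro p σ
        ext y
        exact hC.1 p σ (y : JOne M)
      commD := by
        intro p σ
        by_cases h : Nat.Coprime (p : ℕ) M
        · rw [diamondPrime_of_coprime M ℓ p h]
          ext y
          exact hC.2 _ σ (y : JOne M)
        · unfold diamondPrime
          rw [dif_neg h, one_mul, mul_one]
      unram := by
        intro p hp hpN A hA σ hσ
        ext y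
        exact hU p hp hpN A hA σ hσ (y : JOne M) (nsmul_coe_eq_zero_one M ℓ y)
      quad := by
        intro p hp hpN A hA σ hσ
        rw [diamondPrime_of_coprime M ℓ ⟨p, hp⟩ (hcop p hp hpN)]
        ext y
        have := hQ p hp (hcop p hp hpN) (hne p hp hpN) A hA σ hσ (y : JOne M)
          (nsmul_coe_eq_zero_one M ℓ y)
        simp only [LinearMap.add_apply, LinearMap.sub_apply, Module.End.mul_apply,
          LinearMap.smul_apply, Module.End.one_apply, LinearMap.zero_apply, Submodule.coe_add,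
          Submodule.coe_sub, Submodule.coe_zero, coe_galRepOne_apply,
          coe_heckeTorsOne_apply, coe_diamondTorsOne_apply, natCast_zsmul]
        exact this
      x_ne := hx0
      eigenT := by
        intro p h
        rw [hxT p (hcop p p.2 h) (hne p p.2 h), hdd p (hcop p p.2 h)]
      eigenD := by
        intro p h
        rw [diamondPrime_of_coprime M ℓ p (hcop p p.2 h), hxD, hdd p (hcop p p.2 h)]
      d_ne := hdd_ne
      split := by
        intro p h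
        have hpM := hcop p p.2 h
        -- `t p = φ w`
        have hw : ∃ w : Zb, φ w = e.t p := by
          have heig := e.eig p hpM n₀
          obtain ⟨w, hw⟩ := exists_div_of_charP hℓ φ
            (e.c (p * n₀) + (((p : ℕ) : ℤ) : Zb) * (e.χ (ZMod.unitOfCoprime p hpM) : Zb) *
              (if (p : ℕ) ∣ n₀ then e.c (n₀ / p) else 0)) (e.c n₀) hn₀
          refine ⟨w, ?_⟩
          have h2 : φ w * φ (e.c n₀) = e.t p * φ (e.c n₀) := by
            rw [hw, ← heig, map_add, map_mul, map_mul, map_intCast, Int.cast_natCast]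
            split_ifs <;> simp
          exact mul_right_cancel₀ hn₀ h2
        obtain ⟨w, hw⟩ := hw
        obtain ⟨α, β, h1, h2⟩ := exists_split_zbar w
          ((((p : ℕ) : ℤ) : Zb) * (e.χ (ZMod.unitOfCoprime p hpM) : Zb))
        refine ⟨φ α, φ β, ?_, ?_⟩
        · rw [← map_add, h1, hw, mul_div_assoc, div_self (hdd_ne p h), mul_one]
        · rw [← map_mul, h2, hdiv p hpM, map_mul, map_intCast, Int.cast_natCast]
      ω_frob := by
        intro p hp hpN A hA σ hσ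
        rw [omegaChi_frobenius φ e.χ hp (hcop p hp hpN) (hne p hp hpN) A hA σ hσ,
          hdiv ⟨p, hp⟩ (hcop p hp hpN)]
      ω_inertia := by
        intro p hp hpN A hA σ hσ
        exact omegaChi_inertia φ e.χ hp (fun hd => hpN (hd.mul_right ℓ)) (hne p hp hpN) A hA σ hσ
      ω_level := omegaChi_level φ e.χ
      Np_ne := hMℓ }
  obtain ⟨ρ, hρ1, hρ2⟩ := exists_residualRepD hin
  refine ⟨ρ, hρ2, ?_⟩
  intro p hpM hpℓ A hA σ hσ
  have hpN : ¬ (p : ℕ) ∣ M * ℓ := by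
    intro hd
    rcases (Nat.Prime.dvd_mul p.2).mp hd with h | h
    · exact p.2.one_lt.ne' (Nat.Coprime.eq_one_of_dvd hpM h)
    · exact hpℓ ((Nat.prime_dvd_prime_iff_eq p.2 hℓ).mp h)
  have := hρ1 p p.2 hpN A hA σ hσ
  rw [this]
  have hp' : (⟨(p : ℕ), p.2⟩ : Nat.Primes) = p := Subtype.ext rfl
  rw [hp']
  have e1 : e.t p * dd p / dd p = e.t p := by
    rw [mul_div_assoc, div_self (hdd_ne p hpN), mul_one]
  have e2 : ((p : ℕ) : k) / dd p
      = ((p : ℕ) : k) * φ (e.χ (ZMod.unitOfCoprime p hpM) : Zb) := hdiv p hpM _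
  rw [e1, e2]

end Fermat.Agent.S48WR

namespace Fermat.Agent.S48W

open ModularCurve AlgebraicCurve CongruenceSubgroup
open scoped TensorProduct MatrixGroups ModularForm

/-- **W-WIRE at `ℓ`**: the wall for `ℓ ≥ ℓ₀` from `ProductEigen` and the residual
representations at the pairs `(M, ℓ)` with `ℓ₀ ≤ ℓ`, `ℓ ∣ M`. -/
theorem wallStatementFrom_of_residualAt (ℓ₀ : ℕ) (hP : ProductEigen)
    (hR : ∀ (M : ℕ) [NeZero M] (ℓ : ℕ), ℓ.Prime → ℓ₀ ≤ ℓ → ℓ ∣ M → ResidualOneAt M ℓ) :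
    WallStatementFrom ℓ₀ := by
  intro N _ ε f c a hc hne hK hneb hT ℓ hℓ hℓN hℓ₀ k _ _ φ
  obtain ⟨hNe, e, het, heχ⟩ := hP N ε f c a hc hne hK hneb hT ℓ hℓ hℓN k φ
  haveI : NeZero (N * ℓ) := hNe
  obtain ⟨ρ, hρ1, hρ2⟩ := hR (N * ℓ) ℓ hℓ hℓ₀ (dvd_mul_left ℓ N) k φ e
  refine ⟨ρ, fun p hp hpN => hρ1 p hp ?_, ?_⟩
  · intro hd
    rcases (Nat.Prime.dvd_mul hp).mp hd with h | h
    · exact hpN h
    · exact hpN (h.mul_left N)
  · intro p hp hpN hpℓ A hA σ hσ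
    have hpℓ' : Nat.Coprime p ℓ := (Nat.coprime_primes hp hℓ).mpr hpℓ
    have hpM : Nat.Coprime p (N * ℓ) := Nat.Coprime.mul_right hpN hpℓ'
    have := hρ2 ⟨p, hp⟩ hpM hpℓ A hA σ hσ
    rw [this, het ⟨p, hp⟩ hpM]
    have h2 := heχ ⟨p, hp⟩ hpM hpN
    simp only at h2
    rw [h2]

/-- **W-WIRE at `ℓ`**: the wall for `ℓ ≥ ℓ₀` from `ProductEigen` and the interface propositions of
blocks G, H, A at the pairs `(M, ℓ)` with `ℓ₀ ≤ ℓ`, `ℓ ∣ M`. -/
theorem wallStatementFrom_of_at (ℓ₀ : ℕ) (hP : ProductEigen)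
    (hU : ∀ (M : ℕ) [NeZero M] (ℓ : ℕ), ℓ.Prime → ℓ₀ ≤ ℓ → ℓ ∣ M → TorsionUnramifiedOneAt M ℓ)
    (hQ : ∀ (M : ℕ) [NeZero M] (ℓ : ℕ), ℓ.Prime → ℓ₀ ≤ ℓ → ℓ ∣ M → TorsionFrobQuadraticOneAt M ℓ)
    (hC : ∀ (M : ℕ) [NeZero M], ℓ₀ ≤ M → HeckeGaloisCommOne M)
    (hE : ∀ (M : ℕ) [NeZero M] (ℓ : ℕ), ℓ.Prime → ℓ₀ ≤ ℓ → ℓ ∣ M → EigenclassOneAt M ℓ) :
    WallStatementFrom ℓ₀ :=
  wallStatementFrom_of_residualAt ℓ₀ hP fun M _ ℓ hℓ hℓ₀ hℓM =>
    Fermat.Agent.S48WR.residualOneAt_of_interfaces M ℓ hℓ (hU M ℓ hℓ hℓ₀ hℓM)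
      (hQ M ℓ hℓ hℓ₀ hℓM)
      (hC M (hℓ₀.trans (Nat.le_of_dvd (Nat.pos_of_ne_zero (NeZero.ne M)) hℓM)))
      (hE M ℓ hℓ hℓ₀ hℓM)

end Fermat.Agent.S48W
end
end MergeWrap_S48_W_R_AsmAt
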